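import Mathlib

/-!
# Row LT, tower T7, leaf T7.L2.2.Z (`AsmC561`) -- abstract bookkeeping (helper431)

OFF-MAIN.  Mathlib only.  Complete proofs, nothing assumed.

* `trace_conj_unitary431`   : `tr (Qᴴ M Q) = tr M` for `Q` unitary;
* `conj_diag_apply431`      : `(Qᴴ M Q)_{aa} = ∑_b ∑_c conj Q_{ca} M_{cb} Q_{ba}`;
* `sum_atoms_eq_zero431`    : if all the totals of `t` over the fibres of `a ↦ (b a, l a)` vanish,
                              then `∑_a t_a b_a^k l_a^m = 0`;
* `tsum_nested_subtype431`  : a `tsum` over a nested subtype as a `tsum` of an indicator;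
* `tsum_sigma_fibre431`     : a `tsum` over `Σ i, Fin (n i)` of a function supported in ONE fibre;
* `tsum_blocks431`          : a summable `f : ℕ → ℂ` which vanishes outside disjoint finite blocks
                              `idx i a` is summed block by block;
* `tsum_sigma_fin431`       : a summable family on `Σ i, Fin (n i)` is summed fibre by fibre.
-/

set_option autoImplicit false

open scoped ComplexConjugate Matrix

noncomputable section

namespace Fermat.Agent.LT.T7.H431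

theorem trace_conj_unitary431 {n : ℕ} (Q M : Matrix (Fin n) (Fin n) ℂ)
    (hQ : Q ∈ Matrix.unitaryGroup (Fin n) ℂ) :
    Matrix.trace (Qᴴ * M * Q) = Matrix.trace M := by
  have h1 : Q * Qᴴ = 1 := by
    have := Matrix.mem_unitaryGroup_iff.1 hQ
    simpa [Matrix.star_eq_conjTranspose] using this
  rw [Matrix.trace_mul_comm, ← Matrix.mul_assoc, h1, Matrix.one_mul]

theorem conj_diag_apply431 {n : ℕ} (Q M : Matrix (Fin n) (Fin n) ℂ) (a : Fin n) :
    (Qᴴ * M * Q) a a = ∑ b, ∑ c, conj (Q c a) * M c b * Q b a := by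
  rw [Matrix.mul_apply]
  refine Finset.sum_congr rfl fun b _ => ?_
  rw [Matrix.mul_apply, Finset.sum_mul]
  refine Finset.sum_congr rfl fun c _ => ?_
  rw [Matrix.conjTranspose_apply]
  rfl

theorem sum_atoms_eq_zero431 {n : ℕ} (t b l : Fin n → ℂ) (k : ℤ) (m : ℕ)
    (h : ∀ b₀ l₀ : ℂ, (∑ a, if b a = b₀ ∧ l a = l₀ then t a else 0) = 0) :
    (∑ a, t a * b a ^ k * l a ^ m) = 0 := by
  classical
  have key : ∀ a : Fin n, t a * b a ^ k * l a ^ m
      = ∑ p ∈ (Finset.univ.image fun a : Fin n => (b a, l a)),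
          (if b a = p.1 ∧ l a = p.2 then t a else 0) * p.1 ^ k * p.2 ^ m := by
    intro a
    rw [Finset.sum_eq_single (b a, l a)]
    · simp
    · intro p _ hp
      have : ¬ (b a = p.1 ∧ l a = p.2) := by
        rintro ⟨h1, h2⟩
        exact hp (Prod.ext h1.symm h2.symm)
      simp [this]
    · intro hn
      exact absurd (Finset.mem_image_of_mem _ (Finset.mem_univ a)) hn
  calc (∑ a, t a * b a ^ k * l a ^ m)
      = ∑ a, ∑ p ∈ (Finset.univ.image fun a : Fin n => (b a, l a)),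
          (if b a = p.1 ∧ l a = p.2 then t a else 0) * p.1 ^ k * p.2 ^ m :=
        Finset.sum_congr rfl fun a _ => key a
    _ = ∑ p ∈ (Finset.univ.image fun a : Fin n => (b a, l a)),
          ∑ a, (if b a = p.1 ∧ l a = p.2 then t a else 0) * p.1 ^ k * p.2 ^ m :=
        Finset.sum_comm
    _ = ∑ p ∈ (Finset.univ.image fun a : Fin n => (b a, l a)),
          (∑ a, if b a = p.1 ∧ l a = p.2 then t a else 0) * p.1 ^ k * p.2 ^ m := by
        refine Finset.sum_congr rfl fun p _ => ?_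
        rw [Finset.sum_mul, Finset.sum_mul]
    _ = 0 := by
        refine Finset.sum_eq_zero fun p _ => ?_
        rw [h p.1 p.2, zero_mul, zero_mul]

theorem tsum_nested_subtype431 {ι : Type} (y : ι → ℂ) (P Q : ι → Prop) :
    (∑' j : {j : {j : ι // P j} // Q j.1}, y j.1.1)
      = ∑' j : ι, Set.indicator {j | P j ∧ Q j} y j := by
  have e : {j : {j : ι // P j} // Q j.1} ≃ {j : ι // P j ∧ Q j} :=
    Equiv.subtypeSubtypeEquivSubtypeInter P Q
  have h1 : (∑' j : {j : {j : ι // P j} // Q j.1}, y j.1.1)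
      = ∑' x : {j : ι // P j ∧ Q j}, y x.1 := by
    rw [← Equiv.tsum_eq (Equiv.subtypeSubtypeEquivSubtypeInter P Q)
      (fun x : {j : ι // P j ∧ Q j} => y x.1)]
    rfl
  rw [h1]
  exact tsum_subtype {j | P j ∧ Q j} y

theorem tsum_sigma_fibre431 {ι : Type} (n : ι → ℕ) (f : (Σ i, Fin (n i)) → ℂ) (i₀ : ι)
    (hf : ∀ p : Σ i, Fin (n i), p.1 ≠ i₀ → f p = 0) :
    (∑' p, f p) = ∑ a : Fin (n i₀), f ⟨i₀, a⟩ := by
  classical
  have hinj : Function.Injective (fun a : Fin (n i₀) => (⟨i₀, a⟩ : Σ i, Fin (n i))) := by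
    intro a a' h
    exact eq_of_heq (Sigma.mk.inj h).2
  rw [← tsum_fintype (L := SummationFilter.unconditional _)
    (fun a : Fin (n i₀) => f ⟨i₀, a⟩)]
  refine (Function.Injective.tsum_eq hinj ?_).symm
  intro p hp
  by_contra hne
  have h1 : p.1 ≠ i₀ := by
    intro h
    apply hne
    obtain ⟨i, a⟩ := p
    simp only at h
    subst h
    exact ⟨a, rfl⟩
  exact hp (hf p h1)

theorem tsum_sigma_fin431 {ι : Type} (n : ι → ℕ) (F : (Σ i, Fin (n i)) → ℂ)
    (hF : Summable F) : (∑' p, F p) = ∑' i, ∑ a, F ⟨i, a⟩ := by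
  rw [hF.tsum_sigma]
  refine tsum_congr fun i => ?_
  exact tsum_fintype _

theorem tsum_blocks431 {ι : Type} (n : ι → ℕ) (idx : (i : ι) → Fin (n i) → ℕ)
    (hinj : ∀ (i : ι) (a : Fin (n i)) (i' : ι) (a' : Fin (n i')), idx i a = idx i' a' →
      (⟨i, a⟩ : Σ i, Fin (n i)) = ⟨i', a'⟩)
    (f : ℕ → ℂ) (hf : Summable f)
    (hoff : ∀ j : ℕ, (∀ (i : ι) (a : Fin (n i)), idx i a ≠ j) → f j = 0) :
    Summable (fun p : Σ i, Fin (n i) => f (idx p.1 p.2)) ∧
      (∑' j, f j) = ∑' i, ∑ a, f (idx i a) := by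
  have hinj' : Function.Injective (fun p : Σ i, Fin (n i) => idx p.1 p.2) := by
    rintro ⟨i, a⟩ ⟨i', a'⟩ h
    exact hinj i a i' a' h
  have hs : Summable (fun p : Σ i, Fin (n i) => f (idx p.1 p.2)) :=
    hf.comp_injective hinj'
  refine ⟨hs, ?_⟩
  have h1 : (∑' p : Σ i, Fin (n i), f (idx p.1 p.2)) = ∑' j, f j := by
    refine Function.Injective.tsum_eq hinj' ?_
    intro j hj
    by_contra hne
    apply hj
    apply hoff
    intro i a h
    exact hne ⟨⟨i, a⟩, h⟩
  rw [← h1]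
  exact tsum_sigma_fin431 n (fun p : Σ i, Fin (n i) => f (idx p.1 p.2)) hs

end Fermat.Agent.LT.T7.H431

end
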