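import Mathlib
import Fermat.Agent.LT.T7.H561.SpecUpSpec
import Fermat.Agent.LT.T7.H431.AsmAbs

/-!
# Row LT, tower T7, leaf T7.L2.2.Z = ASSEMBLY (`AsmC561`), closed (helper431)

OFF-MAIN.  Complete proof, nothing assumed.  ADDITIVE (new names only, all ending in `431`).
Spec: `T7/H561/SpecUpSpec.lean` v0.1 of helper561@fa57d28b6 (sha256 383e6674fcbb8ab0; the Props
are those of v0 = helper561@5fae7bc6d, sha256 dbdc56f47a25fb31, byte-unchanged), VERBATIM.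
No definition of the vocabulary is unfolded by `rw` / `simp` / `unfold` here (no equation lemma is
generated in this module): the proof builds against v0 and against v0.1.

    asmC431 : H561.AsmC561 K K'

i.e. `StfC561 K K' → BlocksC561 K K' → NonVanC561 K K' → ChangeC561 K' → AtomsC561 →
SpecUpCS561 K K'`.

Proof (as in the docstring of `AsmC561`).  `g, k₀, m₀` from `NonVanC561`; `e₀, 𝔅` from
`BlocksC561`; `Q i, t i, b i, l i` from `AtomsC561` on each block; `e'` from `ChangeC561`.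
Atoms: `ι' = Σ i, Fin (n i)`, `C ⟨i, a⟩ = C i`, `y ⟨i, a⟩ = t i a`, `b' = b i a`, `l' = l i a`,
`R = √q`.  The diagonal coefficient of `e' (idx i a)` is `X(C i) (Qᴴ N Q)_{aa}`,
`N = B Z^k 𝒰^m A`, and `0` outside the blocks; the series of the diagonal coefficients is
absolutely summable (`StfC561`); regrouping (`tsum_blocks431`, `tsum_sigma_fin431`) and
`tr (Qᴴ N Q) = tr N = ∑_a t b^k l^m`.  Non-vanishing: `sum_atoms_eq_zero431`.
-/

set_option autoImplicit false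

open AutomorphicForm IsDedekindDomain NumberField MeasureTheory
open scoped ComplexConjugate Matrix

noncomputable section

namespace Fermat.Agent.LT.T7.H431

open Fermat.Agent.LT.H556 Fermat.Agent.LT.H556.A0 Fermat.Agent.LT.T7 Fermat.Agent.LT.T7.H561

attribute [local instance] Fermat.Agent.LT.T5.instMeasurableSpaceG

variable {K K' : Type} [Field K] [NumberField K] [Field K'] [NumberField K'] [Algebra K K']

/-- `AgreeOut` is an equivalence relation: two eigen-data which agree with a third one agree. -/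
theorem agreeOut_of_agreeOut431 {S : Finset (HeightOneSpectrum (𝓞 K'))} {D D' E : EigData K'}
    (h1 : D.AgreeOut S E) (h2 : D'.AgreeOut S E) : D.AgreeOut S D' :=
  ⟨fun w hw => ⟨(h1.1 w hw).1.trans (h2.1 w hw).1.symm, (h1.1 w hw).2.trans (h2.1 w hw).2.symm⟩,
    fun w d hd => (h1.2 w d hd).trans (h2.2 w d hd).symm⟩

/-- The eigenvalue of the empty word is `1` (by definition). -/
theorem wordEv_nil431 (D : EigData K') : wordEv ([] : List (Gen K')) D = 1 := rfl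

/-- **LEAF T7.L2.2.Z = ASSEMBLY, closed.** -/
theorem asmC431 : AsmC561 K K' := by
  intro hT hB hN hC hA ℓ hcyc hℓ hcplx Φ hΦ hconst Dt hDt hσ
  classical
  obtain ⟨g, k₀, m₀, hbad, hnv⟩ := hN ℓ hcyc hℓ hcplx Φ hΦ hconst Dt hDt hσ
  obtain ⟨e₀, 𝔅, hBl⟩ := hB ℓ hcyc hℓ hcplx Φ hΦ hconst Dt hDt hσ g hbad
  have hℓpos : 0 < ℓ := hcyc.prime.pos
  have hq1 : (1 : ℝ) ≤ ((Ideal.absNorm (Dt.o 0).asIdeal : ℕ) : ℝ) := by
    have h0 : Ideal.absNorm (Dt.o 0).asIdeal ≠ 0 := by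
      rw [Ne, Ideal.absNorm_eq_zero_iff]
      exact (Dt.o 0).ne_bot
    exact_mod_cast Nat.one_le_iff_ne_zero.2 h0
  have hat := fun i => hA (𝔅.n i) ℓ _ (𝔅.A i) (𝔅.B i) (𝔅.S i) (𝔅.ρ i) hℓpos hq1 (hBl.iw i)
  choose Q t b l hQ ht hreg htr using hat
  have hcd := hDt.comp g hbad
  obtain ⟨e', he', hout, -, hdiag⟩ :=
    hC Dt.s (Dt.𝔑 g) Dt.R'.μ Dt.R'.F Dt.R'.r hcd.frame'.frame hcd.frame'.ray hcd.aut e₀ hBl.onb
      𝔅.ι 𝔅.n 𝔅.idx hBl.inj
      (fun i a => by simpa using (hBl.basis i).orth a a) Q hQ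
  -- the diagonal coefficients inside the blocks
  have hD : ∀ X : List (Gen K'), (∀ x ∈ X, x.Out Dt.S') →
      ∀ (k : ℤ) (m : ℕ) (i : 𝔅.ι) (a : Fin (𝔅.n i)),
      T5.diagCoeff Dt.s Dt.R'.μ Dt.R'.F (Dt.φ' g X k m) (e' (𝔅.idx i a))
        = wordEv X (𝔅.C i) * ((Q i)ᴴ * (𝔅.B i * (𝔅.ρ i 0 * 𝔅.ρ i 0) ^ k
              * (((Real.sqrt ((Ideal.absNorm (Dt.o 0).asIdeal : ℕ) : ℝ) : ℝ) : ℂ)⁻¹
                  • (𝔅.S i 0 * 𝔅.ρ i 0)) ^ m
              * 𝔅.A i) * Q i) a a := by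
    intro X hX k m i a
    rw [hdiag _ (hDt.ekprod_up g X k m hbad hX).1 i a, conj_diag_apply431, Finset.mul_sum]
    refine Finset.sum_congr rfl fun b' _ => ?_
    rw [Finset.mul_sum]
    refine Finset.sum_congr rfl fun c _ => ?_
    rw [hBl.coeff X hX k m i b' c]
    ring
  -- the diagonal coefficients outside the blocks
  have hoff : ∀ X : List (Gen K'), (∀ x ∈ X, x.Out Dt.S') → ∀ (k : ℤ) (m : ℕ) (j : ℕ),
      (∀ (i : 𝔅.ι) (a : Fin (𝔅.n i)), 𝔅.idx i a ≠ j) →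
      T5.diagCoeff Dt.s Dt.R'.μ Dt.R'.F (Dt.φ' g X k m) (e' j) = 0 := by
    intro X hX k m j hj
    rw [hout j hj]
    exact hBl.off X hX k m j hj
  -- absolute summability of the diagonal coefficients
  have hsum : ∀ X : List (Gen K'), (∀ x ∈ X, x.Out Dt.S') → ∀ (k : ℤ) (m : ℕ),
      Summable (fun j => T5.diagCoeff Dt.s Dt.R'.μ Dt.R'.F (Dt.φ' g X k m) (e' j)) := by
    intro X hX k m
    obtain ⟨-, φ₁, φ₂, h1, h2, h3, h4, h5, h6, hφ⟩ := hDt.ekprod_up g X k m hbad hX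
    rw [hφ]
    exact (hT (Dt.comp g) hcd Dt.R'.μ Dt.R'.F Dt.R'.r hcd.frame'.frame hcd.frame'.ray hcd.aut
      e' he' φ₁ φ₂ h1 h2 h3 h4 h5 h6).1
  -- the trace on a block
  have htrace : ∀ X : List (Gen K'), (∀ x ∈ X, x.Out Dt.S') → ∀ (k : ℤ) (m : ℕ) (i : 𝔅.ι),
      (∑ a, T5.diagCoeff Dt.s Dt.R'.μ Dt.R'.F (Dt.φ' g X k m) (e' (𝔅.idx i a)))
        = ∑ a, wordEv X (𝔅.C i) * t i a * b i a ^ k * l i a ^ m := by
    intro X hX k m i
    rw [Finset.sum_congr rfl fun a _ => hD X hX k m i a, ← Finset.mul_sum]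
    have h1 := trace_conj_unitary431 (Q i) (𝔅.B i * (𝔅.ρ i 0 * 𝔅.ρ i 0) ^ k
              * (((Real.sqrt ((Ideal.absNorm (Dt.o 0).asIdeal : ℕ) : ℝ) : ℝ) : ℂ)⁻¹
                  • (𝔅.S i 0 * 𝔅.ρ i 0)) ^ m
              * 𝔅.A i) (hQ i)
    rw [htr i k m] at h1
    rw [Matrix.trace] at h1
    simp only [Matrix.diag_apply] at h1
    rw [h1, Finset.mul_sum]
    refine Finset.sum_congr rfl fun a _ => ?_
    ring
  -- summability of the coefficients of the atoms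
  have hy : Summable (fun p : Σ i, Fin (𝔅.n i) => ‖t p.1 p.2‖) := by
    have h0 := (tsum_blocks431 𝔅.n 𝔅.idx hBl.inj _ (hsum [] (by simp) 0 0)
      (hoff [] (by simp) 0 0)).1
    have h1 := summable_norm_iff.2 h0
    refine Summable.of_nonneg_of_le (fun p => norm_nonneg _) (fun p => ?_) h1
    rcases ht p.1 p.2 with h | h
    · rw [h, norm_zero]
      exact norm_nonneg _
    · rw [h, hD [] (by simp) 0 0 p.1 p.2, wordEv_nil431]
      simp
  -- summability of the atoms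
  have hatoms : ∀ X : List (Gen K'), (∀ x ∈ X, x.Out Dt.S') → ∀ (k : ℤ) (m : ℕ),
      Summable (fun p : Σ i, Fin (𝔅.n i) =>
        wordEv X (𝔅.C p.1) * t p.1 p.2 * b p.1 p.2 ^ k * l p.1 p.2 ^ m) := by
    intro X hX k m
    refine Summable.of_norm_bounded
      (g := fun p : Σ i, Fin (𝔅.n i) => (wordBd X
        * Real.sqrt ((Ideal.absNorm (Dt.o 0).asIdeal : ℕ) : ℝ) ^ m) * ‖t p.1 p.2‖)
      (hy.mul_left _) fun p => ?_
    have h1 := norm_wordEv_le (hBl.unitary p.1) X hX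
    obtain ⟨hb1, hl1, -⟩ := hreg p.1 p.2
    rw [norm_mul, norm_mul, norm_mul, norm_zpow, hb1, one_zpow, mul_one, norm_pow]
    have h2 : ‖l p.1 p.2‖ ^ m ≤ Real.sqrt ((Ideal.absNorm (Dt.o 0).asIdeal : ℕ) : ℝ) ^ m :=
      pow_le_pow_left₀ (norm_nonneg _) hl1 m
    calc ‖wordEv X (𝔅.C p.1)‖ * ‖t p.1 p.2‖ * ‖l p.1 p.2‖ ^ m
        ≤ wordBd X * ‖t p.1 p.2‖ * Real.sqrt ((Ideal.absNorm (Dt.o 0).asIdeal : ℕ) : ℝ) ^ m :=
          mul_le_mul (mul_le_mul_of_nonneg_right h1 (norm_nonneg _)) h2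
            (pow_nonneg (norm_nonneg _) m) (mul_nonneg (wordBd_nonneg X) (norm_nonneg _))
      _ = _ := by ring
  -- the identity
  have hid : ∀ X : List (Gen K'), (∀ x ∈ X, x.Out Dt.S') → ∀ (k : ℤ) (m : ℕ),
      specSide Dt.s Dt.R' e' (Dt.φ' g X k m)
        = ∑' p : Σ i, Fin (𝔅.n i),
            wordEv X (𝔅.C p.1) * t p.1 p.2 * b p.1 p.2 ^ k * l p.1 p.2 ^ m := by
    intro X hX k m
    have h1 := (tsum_blocks431 𝔅.n 𝔅.idx hBl.inj _ (hsum X hX k m) (hoff X hX k m)).2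
    rw [tsum_sigma_fin431 𝔅.n _ (hatoms X hX k m)]
    show (∑' j, T5.diagCoeff Dt.s Dt.R'.μ Dt.R'.F (Dt.φ' g X k m) (e' j)) = _
    rw [h1]
    exact tsum_congr fun i => htrace X hX k m i
  -- non-vanishing
  obtain ⟨i₀, hi₀⟩ := hBl.phi
  have hne : ∃ b₀ l₀ : ℂ,
      (∑' j : {j : {j : Σ i, Fin (𝔅.n i) // b j.1 j.2 = b₀ ∧ l j.1 j.2 = l₀} //
          (𝔅.C j.1.1).AgreeOut Dt.S' (eigOf Φ)}, t j.1.1.1 j.1.1.2) ≠ 0 := by
    by_contra hcon
    push Not at hcon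
    have hz : ∀ b₀ l₀ : ℂ, (∑ a, if b i₀ a = b₀ ∧ l i₀ a = l₀ then t i₀ a else 0) = 0 := by
      intro b₀ l₀
      have h1 := hcon b₀ l₀
      have h2 := tsum_nested_subtype431 (fun p : Σ i, Fin (𝔅.n i) => t p.1 p.2)
        (fun p => b p.1 p.2 = b₀ ∧ l p.1 p.2 = l₀)
        (fun p => (𝔅.C p.1).AgreeOut Dt.S' (eigOf Φ))
      have h3 := tsum_sigma_fibre431 𝔅.n
        (fun p : Σ i, Fin (𝔅.n i) =>
          Set.indicator {p : Σ i, Fin (𝔅.n i) | (b p.1 p.2 = b₀ ∧ l p.1 p.2 = l₀) ∧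
            (𝔅.C p.1).AgreeOut Dt.S' (eigOf Φ)} (fun p : Σ i, Fin (𝔅.n i) => t p.1 p.2) p) i₀
        (by
          intro p hp
          apply Set.indicator_of_notMem
          rintro ⟨-, h4⟩
          exact hp (hBl.distinct _ _ (agreeOut_of_agreeOut431 h4 hi₀)))
      have h5 : (∑ a, if b i₀ a = b₀ ∧ l i₀ a = l₀ then t i₀ a else 0)
          = ∑ a : Fin (𝔅.n i₀), Set.indicator {p : Σ i, Fin (𝔅.n i) |
              (b p.1 p.2 = b₀ ∧ l p.1 p.2 = l₀) ∧ (𝔅.C p.1).AgreeOut Dt.S' (eigOf Φ)}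
              (fun p : Σ i, Fin (𝔅.n i) => t p.1 p.2) ⟨i₀, a⟩ := by
        refine Finset.sum_congr rfl fun a _ => ?_
        by_cases h : b i₀ a = b₀ ∧ l i₀ a = l₀
        · rw [if_pos h, Set.indicator_of_mem]
          exact ⟨h, hi₀⟩
        · rw [if_neg h, Set.indicator_of_notMem]
          exact fun h' => h h'.1
      rw [h5, ← h3, ← h2]
      exact h1
    have h0 := sum_atoms_eq_zero431 (t i₀) (b i₀) (l i₀) k₀ m₀ hz
    rw [← htr i₀ k₀ m₀] at h0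
    apply hnv (𝔅.C i₀) (𝔅.n i₀) (fun a => e₀ (𝔅.idx i₀ a)) hi₀ (hBl.basis i₀)
    rw [← h0, Matrix.trace]
    refine Finset.sum_congr rfl fun a _ => ?_
    rw [hBl.coeff [] (by simp) k₀ m₀ i₀ a a, wordEv_nil431]
    simp
  exact ⟨g, e', Σ i, Fin (𝔅.n i), fun p => 𝔅.C p.1, fun p => b p.1 p.2, fun p => l p.1 p.2,
    Real.sqrt ((Ideal.absNorm (Dt.o 0).asIdeal : ℕ) : ℝ), fun p => t p.1 p.2, hbad, he', hy,
    fun p => hBl.unitary p.1, fun p => hreg p.1 p.2, fun X hX k m _ => hid X hX k m, hne⟩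

end Fermat.Agent.LT.T7.H431

end
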